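import Mathlib

/-!
# The residue fields of `ℤ̄ = integralClosure ℤ ℂ` are algebraically closed

Used by the wirings of S29 and S42 (cluster R): a ring homomorphism `φ : ℤ̄ → k` to a field of
characteristic `p` has a maximal kernel, and the finite residue field of any `p`-adic coefficient
ring embeds into `ℤ̄ ⧸ ker φ` compatibly with a given order.
-/

set_option autoImplicit false

namespace Fermat.Agent.S29.H33

open Polynomial

/-- Every monic polynomial of positive degree over `ℤ̄` has a root in `ℤ̄`. -/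
theorem exists_root_integralClosure (Q : (integralClosure ℤ ℂ)[X]) (hQ : Q.Monic)
    (hdeg : Q.degree ≠ 0) : ∃ z : integralClosure ℤ ℂ, Q.eval z = 0 := by
  have hdeg' : (Q.map (algebraMap (integralClosure ℤ ℂ) ℂ)).degree ≠ 0 := by
    rwa [hQ.degree_map]
  obtain ⟨z, hz⟩ := IsAlgClosed.exists_root _ hdeg'
  have hzint : IsIntegral (integralClosure ℤ ℂ) z := by
    refine ⟨Q, hQ, ?_⟩
    rw [← Polynomial.eval_map]
    exact hz
  have hzZ : IsIntegral ℤ z := isIntegral_trans z hzint
  refine ⟨⟨z, hzZ⟩, ?_⟩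
  have hinj : Function.Injective (algebraMap (integralClosure ℤ ℂ) ℂ) := Subtype.val_injective
  apply hinj
  rw [map_zero, ← Polynomial.eval₂_hom, ← Polynomial.eval_map]
  exact hz

/-- The residue field of `ℤ̄` at a maximal ideal is algebraically closed. -/
theorem isAlgClosed_quot (𝔪 : Ideal (integralClosure ℤ ℂ)) [𝔪.IsMaximal] :
    @IsAlgClosed ((integralClosure ℤ ℂ) ⧸ 𝔪) (Ideal.Quotient.field 𝔪) := by
  letI := Ideal.Quotient.field 𝔪
  refine IsAlgClosed.of_exists_root _ fun q hq hirr => ?_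
  obtain ⟨Q, hQmap, hQdeg, hQmonic⟩ := Polynomial.lifts_and_degree_eq_and_monic
    (f := Ideal.Quotient.mk 𝔪) (p := q)
    ((Polynomial.mem_lifts _).mpr (Polynomial.map_surjective _ Ideal.Quotient.mk_surjective q)) hq
  have hdeg : Q.degree ≠ 0 := by
    rw [hQdeg]
    intro h0
    exact hirr.not_isUnit (Polynomial.isUnit_iff_degree_eq_zero.mpr h0)
  obtain ⟨z, hz⟩ := exists_root_integralClosure Q hQmonic hdeg
  refine ⟨Ideal.Quotient.mk 𝔪 z, ?_⟩
  rw [← hQmap, Polynomial.eval_map, Polynomial.eval₂_hom, hz, map_zero]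

/-- A ring homomorphism from `ℤ̄` to a field of positive characteristic has a maximal kernel. -/
theorem ker_isMaximal_of_charP {k : Type*} [Field k] (p : ℕ) [hp : Fact p.Prime] [CharP k p]
    (φ : integralClosure ℤ ℂ →+* k) : (RingHom.ker φ).IsMaximal := by
  haveI hprime : (RingHom.ker φ).IsPrime := RingHom.ker_isPrime φ
  haveI : Algebra.IsIntegral ℤ (integralClosure ℤ ℂ) := inferInstance
  have hcomap : ((RingHom.ker φ).comap (algebraMap ℤ (integralClosure ℤ ℂ))).IsMaximal := by
    have hmem : (p : ℤ) ∈ (RingHom.ker φ).comap (algebraMap ℤ (integralClosure ℤ ℂ)) := by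
      rw [Ideal.mem_comap, RingHom.mem_ker]
      simp [CharP.cast_eq_zero k p]
    have hp' : Prime (p : ℤ) := Nat.prime_iff_prime_int.mp hp.out
    have hspan : (Ideal.span {(p : ℤ)}).IsMaximal :=
      PrincipalIdealRing.isMaximal_of_irreducible hp'.irreducible
    have hle : Ideal.span {(p : ℤ)} ≤ (RingHom.ker φ).comap (algebraMap ℤ (integralClosure ℤ ℂ)) :=
      (Ideal.span_singleton_le_iff_mem _).mpr hmem
    have hne : (RingHom.ker φ).comap (algebraMap ℤ (integralClosure ℤ ℂ)) ≠ ⊤ :=
      (Ideal.comap_isPrime _ _).ne_top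
    rw [← hspan.eq_of_le hne hle]
    exact hspan
  exact Ideal.isMaximal_of_isIntegral_of_isMaximal_comap (RingHom.ker φ) hcomap

end Fermat.Agent.S29.H33
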