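import Mathlib
import Fermat.Prelude.Def_GaloisRep_Residual
import Fermat.Prelude.Def_GaloisRep_Adic
import Fermat.Agent.R.Defs
import Fermat.Agent.R.Leaves
import Fermat.Agent.R.H2_PDVRStmt
import Fermat.Agent.R.H99_EigenChar
import Fermat.Agent.S29.H33_AlgClosed

/-!
# S29 from S30 (cluster R wiring, helper33)

`core : Stmt_S30 → (frozen S29 for N ≠ 0)`.

Given a normalised eigenform `g` of level `N ≠ 0` and `φ : ℤ̄ → k`, `char k = p`:
* `χ_g : 𝕋 → ℤ̄` the eigen-character (helper99), `R = χ_g(𝕋)` an order, `P = R ∩ ker φ` maximal;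
* `ι : R ↪ 𝒪'` a complete DVR with `ι⁻¹(𝔪) = P` (helper2, `stmt_PDVR`);
* `Stmt_S30` for `χ = ι ∘ χ_g` gives `ρ` over `𝒪''`;
* the finite residue field `k''` of `𝒪''` embeds in the algebraically closed field `ℤ̄ ⧸ ker φ`
  over `R ⧸ P`; base change `ρ` along `𝒪'' → k'' → ℤ̄ ⧸ ker φ → k`.
-/

set_option autoImplicit false

namespace Fermat.Agent.S29.H33

open Polynomial
open scoped TensorProduct

/-- Extension of an embedding of a finite residue field into an algebraically closed field. -/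
theorem exists_lift_residue {R k K : Type*} [CommRing R] [Field k] [Finite k] [Field K]
    [IsAlgClosed K] (P : Ideal R) [P.IsMaximal] (a : R →+* k) (b : R →+* K)
    (ha : ∀ r ∈ P, a r = 0) (hb : ∀ r ∈ P, b r = 0) :
    ∃ j : k →+* K, ∀ r, j (a r) = b r := by
  letI := Ideal.Quotient.field P
  letI : Algebra (R ⧸ P) k := (Ideal.Quotient.lift P a ha).toAlgebra
  letI : Algebra (R ⧸ P) K := (Ideal.Quotient.lift P b hb).toAlgebra
  haveI : Algebra.IsAlgebraic (R ⧸ P) k := Algebra.IsAlgebraic.of_finite _ _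
  let j : k →ₐ[R ⧸ P] K := IsAlgClosed.lift
  refine ⟨j.toRingHom, fun r => ?_⟩
  have h := j.commutes (Ideal.Quotient.mk P r)
  have h1 : algebraMap (R ⧸ P) k (Ideal.Quotient.mk P r) = a r := by
    rw [RingHom.algebraMap_toAlgebra]; exact Ideal.Quotient.lift_mk P a ha
  have h2 : algebraMap (R ⧸ P) K (Ideal.Quotient.mk P r) = b r := by
    rw [RingHom.algebraMap_toAlgebra]; exact Ideal.Quotient.lift_mk P b hb
  rw [h1, h2] at h
  exact h

/-- A ring homomorphism from a local ring to a field that kills the maximal ideal is local. -/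
theorem isLocalHom_of_residue {A k : Type*} [CommRing A] [IsLocalRing A] [Field k]
    (f : A →+* k) (hf : ∀ x ∈ IsLocalRing.maximalIdeal A, f x = 0) : IsLocalHom f := by
  refine ⟨fun x hx => ?_⟩
  by_contra hxu
  have hxm : x ∈ IsLocalRing.maximalIdeal A := (IsLocalRing.mem_maximalIdeal x).mpr hxu
  rw [hf x hxm] at hx
  exact not_isUnit_zero hx

/-- The trivial two-dimensional representation. -/
noncomputable def trivialRep (k : Type) [Field k] : ResidualGaloisRep k where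
  V := Fin 2 → k
  finrank_eq := by simp
  ρ := 1
  factorsThroughFiniteLevel := ⟨⊥, inferInstance, fun _ _ => rfl⟩


/-- The residual representation over `k` of an adic representation over a local ring `A`, along a
ring homomorphism `f : A → k` killing the maximal ideal. -/
noncomputable def residualAlong {A : Type} [CommRing A] [IsLocalRing A] {k : Type} [Field k]
    (ρ : GaloisRepAdic A) (f : A →+* k) (hf : ∀ x ∈ IsLocalRing.maximalIdeal A, f x = 0) :
    ResidualGaloisRep k :=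
  (ρ.baseChangeAlong f (isLocalHom_of_residue f hf)).toResidualGaloisRep

theorem residualAlong_charpoly {A : Type} [CommRing A] [IsLocalRing A] {k : Type} [Field k]
    (ρ : GaloisRepAdic A) (f : A →+* k) (hf : ∀ x ∈ IsLocalRing.maximalIdeal A, f x = 0)
    (σ : AlgebraicClosure ℚ ≃ₐ[ℚ] AlgebraicClosure ℚ) :
    LinearMap.charpoly ((residualAlong ρ f hf).ρ σ) = (LinearMap.charpoly (ρ.ρ σ)).map f := by
  letI : Algebra A k := f.toAlgebra
  exact LinearMap.charpoly_baseChange (ρ.ρ σ) k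

theorem residualAlong_isUnramifiedAt {A : Type} [CommRing A] [IsLocalRing A] {k : Type} [Field k]
    (ρ : GaloisRepAdic A) (f : A →+* k) (hf : ∀ x ∈ IsLocalRing.maximalIdeal A, f x = 0)
    {q : ℕ} (h : ρ.IsUnramifiedAt q) : (residualAlong ρ f hf).IsUnramifiedAt q := by
  intro P hP σ hσ
  letI : Algebra A k := f.toAlgebra
  have h1 : ρ.ρ σ = 1 := h P hP σ hσ
  show (ρ.ρ σ).baseChange k = 1
  rw [h1, LinearMap.baseChange_one]


/-- The type of the frozen statement S29. -/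
def Stmt_S29 : Prop :=
  ∀ {N : ℕ} {g : CuspForm (CongruenceSubgroup.Gamma0 N) 2} (_hg : g.IsNormalizedEigenform)
    {p : ℕ} (_hp : p.Prime) {k : Type} [Field k] [CharP k p]
    (φ : integralClosure ℤ ℂ →+* k),
    ∃ ρ : ResidualGaloisRep k, ρ.IsAttachedTo g φ ∧
      ∀ ℓ : ℕ, ℓ.Prime → ¬ ℓ ∣ N * p → ρ.IsUnramifiedAt ℓ

/-- **S29 for `N ≠ 0` from S30.** -/
theorem core (hS30 : Fermat.Agent.R.Stmt_S30)
    {N : ℕ} [NeZero N] {g : CuspForm (CongruenceSubgroup.Gamma0 N) 2}
    (hg : g.IsNormalizedEigenform)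
    {p : ℕ} (hp : p.Prime) {k : Type} [Field k] [CharP k p]
    (φ : integralClosure ℤ ℂ →+* k) :
    ∃ ρ : ResidualGaloisRep k, ρ.IsAttachedTo g φ ∧
      ∀ ℓ : ℕ, ℓ.Prime → ¬ ℓ ∣ N * p → ρ.IsUnramifiedAt ℓ := by
  classical
  haveI : Fact p.Prime := ⟨hp⟩
  -- the set `S`
  set S : Finset ℕ := insert p N.primeFactors with hS
  have hpS : p ∈ S := Finset.mem_insert_self _ _
  have hNS : ∀ q : ℕ, q.Prime → q ∣ N → q ∈ S := fun q hq hqN =>
    Finset.mem_insert_of_mem (Nat.mem_primeFactors.mpr ⟨hq, hqN, NeZero.ne N⟩)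
  -- the eigen-character
  obtain ⟨χg, hχg⟩ := Fermat.Agent.R.H99.stmt_eigenChar N (↑S : Set ℕ) g hg
  -- the order `R`
  let R : Subring (integralClosure ℤ ℂ) := χg.range
  haveI hfinT : Module.Finite ℤ (CuspForm.heckeAlgebra N 2 (↑S : Set ℕ)) :=
    Fermat.Agent.S22.result N 2 _
  haveI hfinR : Module.Finite ℤ R :=
    Module.Finite.of_surjective (χg.rangeRestrict.toIntAlgHom.toLinearMap)
      χg.rangeRestrict_surjective
  -- the maximal ideal `P`
  haveI hmax : (RingHom.ker φ).IsMaximal := ker_isMaximal_of_charP p φ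
  let P : Ideal R := (RingHom.ker φ).comap R.subtype
  have hsubint : R.subtype.IsIntegral := by
    intro x
    have hx : IsIntegral ℤ x := Algebra.IsIntegral.isIntegral x
    obtain ⟨q, hq, hqx⟩ := hx
    refine ⟨q.map (Int.castRingHom R), hq.map _, ?_⟩
    rw [Polynomial.eval₂_map]
    have : R.subtype.comp (Int.castRingHom R) = algebraMap ℤ (integralClosure ℤ ℂ) :=
      RingHom.ext_int _ _
    rw [this]
    exact hqx
  haveI hPmax : P.IsMaximal :=
    Ideal.isMaximal_comap_of_isIntegral_of_isMaximal' R.subtype hsubint (RingHom.ker φ)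
  have hpker : (p : integralClosure ℤ ℂ) ∈ RingHom.ker φ := by
    rw [RingHom.mem_ker, map_natCast]; exact CharP.cast_eq_zero k p
  have hpP : (p : R) ∈ P := by
    show R.subtype (p : R) ∈ RingHom.ker φ
    rw [map_natCast]; exact hpker
  -- the complete DVR `𝒪'`
  obtain ⟨𝒪', iCR, iD, iDVR, iAC, iFin, iCZ, ι, hιinj, hιcomap⟩ :=
    Fermat.Agent.R.H2.stmt_PDVR R P
  have hp𝒪' : (p : 𝒪') ∈ IsLocalRing.maximalIdeal 𝒪' := by
    have : (p : R) ∈ (IsLocalRing.maximalIdeal 𝒪').comap ι := hιcomap ▸ hpP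
    rw [Ideal.mem_comap, map_natCast] at this
    exact this
  let χ : CuspForm.heckeAlgebra N 2 (↑S : Set ℕ) →+* 𝒪' := ι.comp χg.rangeRestrict
  -- the Galois representation
  obtain ⟨𝒪'', iCR'', iD'', iDVR'', iAC'', iFin'', iCZ'', iAlg, iMF, iLH, hinj'', ρ, hchar, hunr⟩ :=
    hS30 p N S hpS hNS 𝒪' hp𝒪' χ
  -- the embedding of residue fields
  letI : Field (integralClosure ℤ ℂ ⧸ RingHom.ker φ) := Ideal.Quotient.field _
  haveI : IsAlgClosed (integralClosure ℤ ℂ ⧸ RingHom.ker φ) := isAlgClosed_quot _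
  let a : R →+* IsLocalRing.ResidueField 𝒪'' :=
    (IsLocalRing.residue 𝒪'').comp ((algebraMap 𝒪' 𝒪'').comp ι)
  let b : R →+* (integralClosure ℤ ℂ ⧸ RingHom.ker φ) :=
    (Ideal.Quotient.mk (RingHom.ker φ)).comp R.subtype
  have ha : ∀ r ∈ P, a r = 0 := by
    intro r hr
    have h1 : ι r ∈ IsLocalRing.maximalIdeal 𝒪' := by
      have : r ∈ (IsLocalRing.maximalIdeal 𝒪').comap ι := hιcomap ▸ hr
      exact this
    have h2 : algebraMap 𝒪' 𝒪'' (ι r) ∈ IsLocalRing.maximalIdeal 𝒪'' := by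
      rw [IsLocalRing.mem_maximalIdeal, mem_nonunits_iff] at h1 ⊢
      exact fun hu => h1 (isUnit_of_map_unit (algebraMap 𝒪' 𝒪'') _ hu)
    exact (IsLocalRing.residue_eq_zero_iff _).mpr h2
  have hb : ∀ r ∈ P, b r = 0 := by
    intro r hr
    exact Ideal.Quotient.eq_zero_iff_mem.mpr hr
  obtain ⟨j₀, hj₀⟩ := exists_lift_residue P a b ha hb
  let j : IsLocalRing.ResidueField 𝒪'' →+* k := (RingHom.kerLift φ).comp j₀
  have hj : ∀ r : R, j (a r) = φ r := by
    intro r
    show RingHom.kerLift φ (j₀ (a r)) = φ r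
    rw [hj₀ r]
    exact RingHom.kerLift_mk φ _
  let f : 𝒪'' →+* k := j.comp (IsLocalRing.residue 𝒪'')
  have hf : ∀ x ∈ IsLocalRing.maximalIdeal 𝒪'', f x = 0 := by
    intro x hx
    show j (IsLocalRing.residue 𝒪'' x) = 0
    rw [(IsLocalRing.residue_eq_zero_iff _).mpr hx, map_zero]
  refine ⟨residualAlong ρ f hf, ?_, ?_⟩
  · intro ℓ hℓ hℓN hℓk A hA σ hσ
    have hℓp : ℓ ≠ p := by
      rintro rfl
      exact hℓk (CharP.cast_eq_zero k ℓ)
    have hℓS : ℓ ∉ (↑S : Set ℕ) := by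
      rw [Finset.mem_coe, hS, Finset.mem_insert]
      rintro (h | h)
      · exact hℓp h
      · exact hℓN (Nat.dvd_of_mem_primeFactors h)
    refine ⟨χg (CuspForm.heckeAlgebra.T hℓ hℓN hℓS), hχg ℓ hℓ hℓN hℓS, ?_⟩
    rw [residualAlong_charpoly, hchar ℓ hℓ hℓN hℓS A hA σ hσ]
    have hval : f (algebraMap 𝒪' 𝒪'' (χ (CuspForm.heckeAlgebra.T hℓ hℓN hℓS))) =
        φ (χg (CuspForm.heckeAlgebra.T hℓ hℓN hℓS)) := by
      have := hj (χg.rangeRestrict (CuspForm.heckeAlgebra.T hℓ hℓN hℓS))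
      exact this
    simp only [Polynomial.map_add, Polynomial.map_sub, Polynomial.map_mul, Polynomial.map_pow,
      Polynomial.map_X, Polynomial.map_C, hval, map_natCast, Polynomial.map_natCast]
  · intro ℓ hℓ hℓNp
    have hℓN : ¬ ℓ ∣ N := fun h => hℓNp (Dvd.dvd.mul_right h p)
    have hℓp : ℓ ≠ p := by
      rintro rfl
      exact hℓNp (Dvd.intro_left N rfl)
    exact residualAlong_isUnramifiedAt ρ f hf (hunr ℓ hℓ hℓN hℓp)

/-- **S29 from S30** (all `N`; for `N = 0` the statement is vacuous). -/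
theorem stmt_S29_of_S30 (hS30 : Fermat.Agent.R.Stmt_S30) : Stmt_S29 := by
  intro N g hg p hp k _ _ φ
  rcases Nat.eq_zero_or_pos N with hN | hN
  · subst hN
    refine ⟨trivialRep k, ?_, ?_⟩
    · intro ℓ _ hℓN
      exact absurd (dvd_zero ℓ) hℓN
    · intro ℓ _ hℓNp
      rw [zero_mul] at hℓNp
      exact absurd (dvd_zero ℓ) hℓNp
  · haveI : NeZero N := ⟨hN.ne'⟩
    exact core hS30 hg hp φ

end Fermat.Agent.S29.H33
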