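import Mathlib
import Fermat.Prelude.Def_GaloisRep_Residual
import Fermat.Prelude.Def_CuspForm_HeckeGaloisRepDatum

/-!
# S29 wiring (helper83): the frozen S29 statement from S30 + two leaves

* `Stmt_S30`         : verbatim copy of the TYPE of the frozen statement S30 (never the constant).
* `Stmt_eigensystem` : a normalised eigenform (in the prelude's `q`-expansion sense) of level `N ≥ 1`
                       defines a ring hom `heckeAlgebra N 2 S →+* ℤ̄` with `T_ℓ ↦ a_ℓ`.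
* `Stmt_coeffRing`   : every ring hom `χ₀ : T →+* ℤ̄` from a ring `T` that is finite over `ℤ`, together
                       with `φ : ℤ̄ →+* k` (`char k = p`), factors through a complete DVR `𝒪'` (finite
                       residue field, characteristic zero) compatibly with the residue maps, and the
                       compatibility extends to every finite local extension `𝒪''` of `𝒪'`.

`result_of_inputs : Stmt_S30 → Stmt_eigensystem → Stmt_coeffRing → (frozen S29 type)`.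
-/

set_option autoImplicit false

namespace Fermat.Agent.S29

open Polynomial

/-- Verbatim copy of the type of the frozen statement S30. -/
def Stmt_S30 : Prop :=
    ∀ (p : ℕ) [Fact p.Prime] (N : ℕ) [NeZero N] (S : Finset ℕ)
      (_hpS : p ∈ S) (_hNS : ∀ q : ℕ, q.Prime → q ∣ N → q ∈ S)
      (𝒪' : Type) [CommRing 𝒪'] [IsDomain 𝒪'] [IsDiscreteValuationRing 𝒪']
      [IsAdicComplete (IsLocalRing.maximalIdeal 𝒪') 𝒪'] [Finite (IsLocalRing.ResidueField 𝒪')]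
      [CharZero 𝒪'] (_hp𝒪' : (p : 𝒪') ∈ IsLocalRing.maximalIdeal 𝒪')
      (χ : CuspForm.heckeAlgebra N 2 (↑S : Set ℕ) →+* 𝒪'),
      ∃ (𝒪'' : Type) (_ : CommRing 𝒪'') (_ : IsDomain 𝒪'') (_ : IsDiscreteValuationRing 𝒪'')
        (_ : IsAdicComplete (IsLocalRing.maximalIdeal 𝒪'') 𝒪'')
        (_ : Finite (IsLocalRing.ResidueField 𝒪'')) (_ : CharZero 𝒪'')
        (_ : Algebra 𝒪' 𝒪'') (_ : Module.Finite 𝒪' 𝒪'') (_ : IsLocalHom (algebraMap 𝒪' 𝒪'')),
      Function.Injective (algebraMap 𝒪' 𝒪'') ∧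
      ∃ ρ : GaloisRepAdic 𝒪'',
        (∀ (ℓ : ℕ) (hℓ : ℓ.Prime) (hℓN : ¬ ℓ ∣ N) (hℓS : ℓ ∉ (↑S : Set ℕ)),
          ∀ A : ValuationSubring (AlgebraicClosure ℚ), A.LiesOverPrime ℓ →
            ∀ σ : AlgebraicClosure ℚ ≃ₐ[ℚ] AlgebraicClosure ℚ, A.IsFrobeniusAt σ ℓ →
              LinearMap.charpoly (ρ.ρ σ) =
                X ^ 2 - C (algebraMap 𝒪' 𝒪'' (χ (CuspForm.heckeAlgebra.T hℓ hℓN hℓS))) * X
                  + C ((ℓ : 𝒪''))) ∧
        (∀ q : ℕ, q.Prime → ¬ q ∣ N → q ≠ p → ρ.IsUnramifiedAt q)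

/-- Leaf L1: the eigen-system of a normalised eigenform, with values in the algebraic integers. -/
def Stmt_eigensystem : Prop :=
  ∀ (N : ℕ) [NeZero N] (S : Set ℕ) (g : CuspForm (CongruenceSubgroup.Gamma0 N) 2),
    g.IsNormalizedEigenform →
    ∃ χ₀ : CuspForm.heckeAlgebra N 2 S →+* integralClosure ℤ ℂ,
      ∀ (ℓ : ℕ) (hℓ : ℓ.Prime) (hℓN : ¬ ℓ ∣ N) (hℓS : ℓ ∉ S),
        ((χ₀ (CuspForm.heckeAlgebra.T hℓ hℓN hℓS) : integralClosure ℤ ℂ) : ℂ)
          = ModularFormClass.qCoeff g ℓ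

/-- Leaf L2: a `p`-adic coefficient ring for a character with values in the algebraic integers. -/
def Stmt_coeffRing : Prop :=
  ∀ (p : ℕ) [Fact p.Prime] (T : Type) [CommRing T] [Module.Finite ℤ T]
    (χ₀ : T →+* integralClosure ℤ ℂ) (k : Type) [Field k] [CharP k p]
    (φ : integralClosure ℤ ℂ →+* k),
    ∃ (𝒪' : Type) (_ : CommRing 𝒪') (_ : IsDomain 𝒪') (_ : IsDiscreteValuationRing 𝒪')
      (_ : IsAdicComplete (IsLocalRing.maximalIdeal 𝒪') 𝒪')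
      (_ : Finite (IsLocalRing.ResidueField 𝒪')) (_ : CharZero 𝒪')
      (_ : (p : 𝒪') ∈ IsLocalRing.maximalIdeal 𝒪') (χ : T →+* 𝒪'),
      ∀ (𝒪'' : Type) [CommRing 𝒪''] [IsDomain 𝒪''] [IsDiscreteValuationRing 𝒪'']
        [Algebra 𝒪' 𝒪''] [Module.Finite 𝒪' 𝒪''] [IsLocalHom (algebraMap 𝒪' 𝒪'')],
        ∃ j : IsLocalRing.ResidueField 𝒪'' →+* k,
          ∀ t : T, j (IsLocalRing.residue 𝒪'' (algebraMap 𝒪' 𝒪'' (χ t))) = φ (χ₀ t)

/-- The trivial two-dimensional residual representation. -/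
noncomputable def trivialRep (k : Type) [Field k] : ResidualGaloisRep k where
  V := Fin 2 → k
  finrank_eq := by simp
  ρ := 1
  factorsThroughFiniteLevel := ⟨⊥, inferInstance, fun _ _ => rfl⟩

/-- The case `N = 0` of S29 is vacuous: every prime divides `0`. -/
theorem result_level_zero
    {g : CuspForm (CongruenceSubgroup.Gamma0 0) 2} (_hg : g.IsNormalizedEigenform)
    {p : ℕ} (_hp : p.Prime) {k : Type} [Field k] [CharP k p]
    (φ : integralClosure ℤ ℂ →+* k) :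
    ∃ ρ : ResidualGaloisRep k, ρ.IsAttachedTo g φ ∧
      ∀ ℓ : ℕ, ℓ.Prime → ¬ ℓ ∣ 0 * p → ρ.IsUnramifiedAt ℓ :=
  ⟨trivialRep k, fun ℓ _ hℓ0 => absurd (dvd_zero ℓ) hℓ0,
    fun ℓ _ hℓ0 => absurd (by simp) hℓ0⟩

theorem charpoly_residual {A : Type} [CommRing A] [IsLocalRing A] (ρ : GaloisRepAdic A)
    (σ : AlgebraicClosure ℚ ≃ₐ[ℚ] AlgebraicClosure ℚ) :
    LinearMap.charpoly (ρ.residual.ρ σ)
      = (LinearMap.charpoly (ρ.ρ σ)).map (IsLocalRing.residue A) :=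
  LinearMap.charpoly_baseChange (ρ.ρ σ) (IsLocalRing.ResidueField A)

theorem charpoly_baseChangeAlong {k k' : Type} [Field k] [Field k'] (j : k →+* k')
    (ρ : ResidualGaloisRep k) (σ : AlgebraicClosure ℚ ≃ₐ[ℚ] AlgebraicClosure ℚ) :
    LinearMap.charpoly ((ρ.baseChangeAlong j).ρ σ) = (LinearMap.charpoly (ρ.ρ σ)).map j := by
  let _ : Algebra k k' := j.toAlgebra
  exact LinearMap.charpoly_baseChange (ρ.ρ σ) k'

theorem residual_eq_one {A : Type} [CommRing A] [IsLocalRing A] (ρ : GaloisRepAdic A)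
    (σ : AlgebraicClosure ℚ ≃ₐ[ℚ] AlgebraicClosure ℚ) (h : ρ.ρ σ = 1) :
    ρ.residual.ρ σ = 1 := by
  have h1 : ρ.residual.ρ σ = (ρ.ρ σ).baseChange (IsLocalRing.ResidueField A) := rfl
  rw [h1, h, LinearMap.baseChange_one]
  rfl

theorem baseChangeAlong_eq_one {k k' : Type} [Field k] [Field k'] (j : k →+* k')
    (ρ : ResidualGaloisRep k) (σ : AlgebraicClosure ℚ ≃ₐ[ℚ] AlgebraicClosure ℚ)
    (h : ρ.ρ σ = 1) : (ρ.baseChangeAlong j).ρ σ = 1 := by
  let _ : Algebra k k' := j.toAlgebra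
  have h1 : (ρ.baseChangeAlong j).ρ σ = (ρ.ρ σ).baseChange k' := rfl
  rw [h1, h, LinearMap.baseChange_one]
  rfl

/-- **S29 from S30**: the frozen S29 statement follows from S30 and the two leaves. -/
theorem result_of_inputs (h30 : Stmt_S30) (hE : Stmt_eigensystem) (hC : Stmt_coeffRing)
    (hS22 : ∀ (N : ℕ) [NeZero N] (k : ℤ) (S : Set ℕ),
      Module.Finite ℤ (CuspForm.heckeAlgebra N k S))
    {N : ℕ} {g : CuspForm (CongruenceSubgroup.Gamma0 N) 2} (hg : g.IsNormalizedEigenform)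
    {p : ℕ} (hp : p.Prime) {k : Type} [Field k] [CharP k p]
    (φ : integralClosure ℤ ℂ →+* k) :
    ∃ ρ : ResidualGaloisRep k, ρ.IsAttachedTo g φ ∧
      ∀ ℓ : ℕ, ℓ.Prime → ¬ ℓ ∣ N * p → ρ.IsUnramifiedAt ℓ := by
  rcases Nat.eq_zero_or_pos N with rfl | hN
  · exact result_level_zero hg hp φ
  have : NeZero N := ⟨hN.ne'⟩
  have : Fact p.Prime := ⟨hp⟩
  -- the finite set of bad primes
  let S : Finset ℕ := insert p N.primeFactors
  have hpS : p ∈ S := Finset.mem_insert_self _ _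
  have hNS : ∀ q : ℕ, q.Prime → q ∣ N → q ∈ S := fun q hq hqN =>
    Finset.mem_insert_of_mem (Nat.mem_primeFactors.mpr ⟨hq, hqN, hN.ne'⟩)
  have hS_of : ∀ ℓ : ℕ, ℓ.Prime → ¬ ℓ ∣ N → ℓ ≠ p → ℓ ∉ (↑S : Set ℕ) := by
    intro ℓ _ hℓN hℓp hmem
    rcases Finset.mem_insert.mp (Finset.mem_coe.mp hmem) with h | h
    · exact hℓp h
    · exact hℓN (Nat.dvd_of_mem_primeFactors h)
  obtain ⟨χ₀, hχ₀⟩ := hE N (↑S : Set ℕ) g hg
  have hfin : Module.Finite ℤ (CuspForm.heckeAlgebra N 2 (↑S : Set ℕ)) := hS22 N 2 ↑S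
  obtain ⟨𝒪', i1, i2, i3, i4, i5, i6, hp𝒪', χ, hχ⟩ :=
    hC p (CuspForm.heckeAlgebra N 2 (↑S : Set ℕ)) χ₀ k φ
  obtain ⟨𝒪'', j1, j2, j3, j4, j5, j6, j7, j8, j9, -, ρ, hcharpoly, hunr⟩ :=
    h30 p N S hpS hNS 𝒪' hp𝒪' χ
  obtain ⟨j, hj⟩ := hχ 𝒪''
  refine ⟨ρ.residual.baseChangeAlong j, ?_, ?_⟩
  · intro ℓ hℓ hℓN hℓk A hA σ hσ
    have hℓp : ℓ ≠ p := by
      rintro rfl
      exact hℓk (CharP.cast_eq_zero k ℓ)
    have hℓS := hS_of ℓ hℓ hℓN hℓp
    refine ⟨χ₀ (CuspForm.heckeAlgebra.T hℓ hℓN hℓS), hχ₀ ℓ hℓ hℓN hℓS, ?_⟩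
    rw [charpoly_baseChangeAlong, charpoly_residual, hcharpoly ℓ hℓ hℓN hℓS A hA σ hσ]
    simp only [Polynomial.map_add, Polynomial.map_sub, Polynomial.map_mul, Polynomial.map_pow,
      Polynomial.map_X, Polynomial.map_C, Polynomial.map_natCast, map_natCast, hj]
  · intro ℓ hℓ hℓNp A hA σ hσ
    have hℓN : ¬ ℓ ∣ N := fun h => hℓNp (Dvd.dvd.mul_right h p)
    have hℓp : ℓ ≠ p := by
      rintro rfl
      exact hℓNp (Dvd.intro_left N rfl)
    exact baseChangeAlong_eq_one j _ σ (residual_eq_one ρ σ (hunr ℓ hℓ hℓN hℓp A hA σ hσ))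

end Fermat.Agent.S29
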